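import Fermat.Agent.S38.IA.Hecke.H81.IADictT
import Fermat.Agent.S38T.IA.Hecke.H183.CmpSpecIA

/-!
# S59 (B2), cell HECKE-T, layer 4: leaf IA-DICT-T, the `ty`-generic twin  (helper81)

`iaDictT_T : H183.IADictTStatement_T` (VERBATIM, `S38T/IA/Hecke/H183/CmpSpecIA.lean`, helper3): the
twin of `H81.iaDictT` for every type `ty` at `p` and every odd `p` (neither `3 ≤ p` nor the type
hypothesis is used; the core `dictT_gen` is already generic in `t` and `p`).  For the
combined family (pivots, then Taylor–Wiles primes), an eigenvector `y` of `T_Q` in `V` fixed by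
the diamond operator `⟨u⟩_j` at the Taylor–Wiles prime `q_j` is a newform point of a level `M₁`
with `q_j² ∤ M₁`.  Instance of `dictT_gen` (`DictTGen.lean`) at `qq = Sum.elim pv qv`,
`s₀ = Sum.inr j`.
-/

set_option autoImplicit false
set_option linter.style.haveILetI false
set_option linter.unusedSectionVars false

open Polynomial IsLocalRing CongruenceSubgroup
open scoped MatrixGroups

namespace Fermat.Agent.S38.IA.Hecke.H81

open Fermat.Agent.S59.Arch Fermat.Agent.S59.TW.H959 Fermat.Agent.S59.TW.H653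
open Fermat.Agent.S59.TW.Aut
open Fermat.Agent.S38.IA Fermat.Agent.S38.IA.Hecke Fermat.Agent.S38.H781

/-- **IA-DICT-T**, `ty`-generic twin (VERBATIM). -/
theorem iaDictT_T : H183.IADictTStatement_T := by
  intro p _ _hp3 𝒪 _ _ _ _ _ _ ρbar Smin hRH ty _hty Piv hPiv k pv hpv hpvPiv n r qv hq _ PQ α _hα
    V h a hV hh1 hh2 ha j u hu y hy hfix
  obtain ⟨hqinj, hqprop, -⟩ := hq
  have hpvmem : ∀ i, pv i ∈ Piv := fun i => by
    rw [← hpvPiv]
    exact Finset.mem_image_of_mem _ (Finset.mem_univ i)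
  have hdisj : ∀ i j, pv i ≠ qv j := fun i j hij =>
    (hqprop j).2.1 (Finset.mem_union_right _ (hij ▸ hpvmem i))
  have hqqinj : Function.Injective (Sum.elim pv qv) :=
    injective_sum_elim_h781 pv qv hpv hqinj hdisj
  have hqqP : ∀ s, (Sum.elim pv qv s).Prime ∧ Sum.elim pv qv s ∉ Smin := by
    rintro (i | j)
    · exact ⟨(hPiv _ (hpvmem i)).1, (hPiv _ (hpvmem i)).2.1⟩
    · exact ⟨(hqprop j).1, fun hmem => (hqprop j).2.1 (Finset.mem_union_left _ hmem)⟩
  have hset : Smin ∪ Piv ∪ Finset.univ.image qv =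
      Smin ∪ Finset.univ.image (Sum.elim pv qv) := by
    rw [image_sum_elim_h781, hpvPiv, Finset.union_assoc]
  have hfix' : diamondU (isMid_KG p (wilesLevel p ty Smin Smin) (Sum.elim pv qv))
      (gLift (wilesLevel p ty Smin Smin) (Sum.elim pv qv)
        (Pi.mulSingle (M := fun s : Fin k ⊕ Fin r => (ZMod (Sum.elim pv qv s))ˣ)
          (Sum.inr j) u))
      (y : Additive (KG p (wilesLevel p ty Smin Smin) (Sum.elim pv qv)) →+ 𝒪) = y := by
    rw [← pairU_one_mulSingle]
    exact hfix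
  exact dictT_gen (Sum.elim pv qv) hRH hqqinj hqqP hset PQ V hV h
    (isHalf_sum_h781 p pv qv hh1 hh2) a ha (Sum.inr j) u hu y hy.1 hy.2 hfix'

end Fermat.Agent.S38.IA.Hecke.H81
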